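import Fermat.Agent.Root.SummarySplitReduction
import Fermat.Agent.Tau.RealModuli
import Fermat.Agent.CMTorsionAllOrders.Action
import Fermat.Agent.JugendtraumField.Local
import Fermat.Agent.Jugendtraum.Main

/-!
# The invariant of a curve with multiplication by an order

`j` is a root of the class polynomial `H` of the discriminant, which has a real root, so `√d` is
not in `ℚ(j)`; and where `H` has distinct linear factors modulo `q` every Frobenius element at `q`
fixes `j`.
-/

set_option autoImplicit false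
set_option linter.style.haveILetI false
set_option linter.unusedSectionVars false

noncomputable section

open Polynomial WeierstrassCurve FA.CMFields FA.Singular
open scoped Classical UpperHalfPlane WeierstrassCurve.Affine

local notation "Qb" => AlgebraicClosure ℚ
local notation "GQ" => AlgebraicClosure ℚ ≃ₐ[ℚ] AlgebraicClosure ℚ

namespace FA.CMClassFactor

/-- The discriminant of a multiplier ring is `0` or `1` modulo four. -/
theorem exists_eq_sq_sub {D : ℤ} (hD : D < 0) {L : PeriodPair} (hring : IsMultiplierRing L D) :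
    ∃ B C : ℤ, B ^ 2 - 4 * C = D := by
  have hst : Stable L (omega D) := (hring _).2 ⟨0, 1, by simp⟩
  obtain ⟨x, y, e⟩ := (hring (omega D * omega D)).1 fun l hl => by
    rw [mul_assoc]; exact hst _ (hst l hl)
  have hs0 := Real.sqrt_pos.mpr (neg_pos.mpr (Int.cast_lt_zero (R := ℝ) |>.mpr hD))
  have hms := Real.mul_self_sqrt (neg_nonneg.mpr ((Int.cast_nonpos (R := ℝ)).mpr hD.le))
  have him := congrArg Complex.im e
  have hre := congrArg Complex.re e
  simp [omega, Complex.div_ofNat_re, Complex.div_ofNat_im] at him hre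
  have hy : (y : ℝ) = D := by nlinarith [hs0]
  refine ⟨D, -x, ?_⟩
  have : ((D ^ 2 - 4 * -x : ℤ) : ℝ) = D := by
    push_cast
    rw [hy] at hre
    nlinarith [hms]
  exact_mod_cast this

/-- **The class polynomial at the curve.** -/
theorem exists_classPoly {F : IntermediateField ℚ Qb} (E : WeierstrassCurve F) [E.IsElliptic]
    (ψ : F →+* ℂ) {D : ℤ} (hD : D < -4) {L : PeriodPair} (h2 : L.g₂ = ψ E.c₄ / 12)
    (h3 : L.g₃ = ψ E.c₆ / 216) (hring : IsMultiplierRing L D) :
    ∃ H : ℤ[X], H.Monic ∧ Irreducible (H.map (Int.castRingHom ℚ)) ∧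
      H.natDegree = (Red D).ncard ∧ aeval (E.j : Qb) H = 0 ∧ (∃ r : ℝ, aeval r H = 0) ∧
      ∀ q : ℕ, q.Prime → 5 ≤ q → ¬ (q : ℤ) ∣ D → ∀ t k : ℤ, t ^ 2 - 4 * (q : ℤ) = k ^ 2 * D →
        ∃ S : Finset (ZMod q), H.map (Int.castRingHom (ZMod q)) = ∏ r ∈ S, (X - C r) := by
  have hD0 : D < 0 := by omega
  obtain ⟨B, C₀, hBC⟩ := exists_eq_sq_sub hD0 hring
  obtain ⟨H, hmon, hirr, hdeg, hroots, htfae⟩ :=
    FA.Summary.primes_principalForm_split hD0 hBC
  have hval : ∀ z ∈ values D, aeval z H = 0 := by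
    rintro z ⟨f, hf, τ, hτ, rfl⟩
    exact (hroots _).2 ⟨f.1, f.2.1, f.2.2, τ, hf.2.2.1, hf.1, hf.2.1, hτ, rfl⟩
  refine ⟨H, hmon, hirr, hdeg, ?_, ?_, fun q hq h5 hqD t k h => ?_⟩
  · -- the curve's invariant
    obtain ⟨τ, c, hc, hlat, hj⟩ := FA.CMFields.exists_latPair_curve (E.map ψ) (L := L)
      (by rw [map_c₄]; exact h2) (by rw [map_c₆]; exact h3)
    have hv := mem_values_of_ring hD0 ((isMultiplierRing_scale hlat D).1 hring)
    rw [hj, map_j] at hv
    haveI : Algebra.IsAlgebraic F Qb := Algebra.IsAlgebraic.tower_top (K := ℚ) F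
    letI := ψ.toAlgebra
    let φ : Qb →ₐ[F] ℂ := IsAlgClosed.lift
    refine (φ : Qb →+* ℂ).injective ?_
    have h := Polynomial.aeval_algHom_apply (φ.restrictScalars ℤ) (E.j : Qb) H
    rw [show (φ.restrictScalars ℤ) (E.j : Qb) = ψ E.j from φ.commutes E.j, hval _ hv] at h
    rw [map_zero]
    exact h.symm
  · -- the principal form is ambiguous
    obtain ⟨b, c, hb, hbc⟩ : ∃ b c : ℤ, (b = 0 ∨ b = 1) ∧ b ^ 2 - 4 * c = D := by
      rcases Int.even_or_odd B with ⟨r, hr⟩ | ⟨r, hr⟩
      · exact ⟨0, C₀ - r * r, Or.inl rfl, by rw [← hBC, hr]; ring⟩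
      · exact ⟨1, C₀ - r * r - r, Or.inr rfl, by rw [← hBC, hr]; ring⟩
    have hf : ((1, b, c) : ℤ × ℤ × ℤ) ∈ Red D := by
      refine ⟨by simpa using hbc, by simp, one_pos, ?_, ?_, fun _ => ?_⟩
      · rcases hb with rfl | rfl <;> simp
      · show 1 ≤ c
        rcases hb with rfl | rfl <;> linarith
      · show 0 ≤ b
        rcases hb with rfl | rfl <;> norm_num
    obtain ⟨τ, hτ⟩ := exists_isRoot (t := ((1 : ℤ), b, c)) one_pos
      (show b ^ 2 - 4 * 1 * c < 0 by linarith)
    have him : (FA.ModField.jfun τ).im = 0 := (FA.RealModuli.im_eq_zero_iff hD0 hf hτ).2 (by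
      rcases hb with rfl | rfl
      · exact Or.inl rfl
      · exact Or.inr (Or.inl (by simp)))
    refine ⟨(FA.ModField.jfun τ).re, ?_⟩
    refine Complex.ofReal_injective ?_
    rw [Complex.ofReal_zero, ← hval _ ⟨_, hf, τ, hτ, rfl⟩]
    have hre : ((FA.ModField.jfun τ).re : ℂ) = FA.ModField.jfun τ :=
      Complex.ext (by simp) (by simp [him])
    conv_rhs => rw [← hre]
    exact (Polynomial.aeval_algebraMap_apply ℂ (FA.ModField.jfun τ).re H).symm
  · obtain ⟨-, S, -, hS⟩ := ((htfae q hq h5 hqD).out 1 3 rfl rfl).1 ⟨t, k, h⟩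
    exact ⟨S, hS⟩

/-- **Where the class polynomial splits into distinct factors Frobenius fixes its roots.** -/
theorem frobenius_fixes {H : ℤ[X]} (hmon : H.Monic) {y : Qb} (hy : aeval y H = 0) {q : ℕ}
    (hq : q.Prime) {S : Finset (ZMod q)}
    (hS : H.map (Int.castRingHom (ZMod q)) = ∏ r ∈ S, (X - C r)) {A : ValuationSubring Qb}
    (hA : A.LiesOverPrime q) {φ : GQ} (hφ : A.IsFrobeniusAt φ q) : φ y = y := by
  haveI := Fact.mk hq
  haveI := FA.Frob.residueField_charP A hq hA
  have hint : ∀ {z : Qb}, aeval z H = 0 → z ∈ A := fun {z} hz =>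
    FA.Deform.zbar_mem_valuationSubring A ⟨z, H, hmon, hz⟩
  have hyφ : aeval (φ y) H = 0 := by
    have := Polynomial.aeval_algHom_apply (φ.toAlgHom.restrictScalars ℤ) y H
    rw [hy, map_zero] at this
    exact this
  set a : A := ⟨y, hint hy⟩
  set b : A := ⟨φ y, hint hyφ⟩
  have hev : ∀ w : A, aeval (w : Qb) H = 0 → (H.map (Int.castRingHom A)).IsRoot w := fun w hw => by
    rw [IsRoot.def, eval_map]
    refine Subtype.coe_injective (?_ : ((eval₂ (Int.castRingHom A) w H : A) : Qb) = ((0 : A) : Qb))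
    rw [ZeroMemClass.coe_zero, ← hw]
    exact (Polynomial.hom_eval₂ H (Int.castRingHom A) A.subtype w).trans (by
      rw [show A.subtype.comp (Int.castRingHom A) = algebraMap ℤ Qb from RingHom.ext_int _ _]
      rfl)
  let res : A →+* IsLocalRing.ResidueField A := IsLocalRing.residue A
  let κ : ZMod q →+* IsLocalRing.ResidueField A := ZMod.castHom (dvd_refl q) _
  have hmap : ((H.map (Int.castRingHom A)).map res) =
      (∏ r ∈ S, (X - C r) : (ZMod q)[X]).map κ := by
    rw [← hS, Polynomial.map_map, Polynomial.map_map]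
    exact congrArg (H.map ·) (RingHom.ext_int _ _)
  have hsep : ((H.map (Int.castRingHom A)).map res).Separable := by
    rw [hmap]
    exact (separable_prod_X_sub_C_iff'.2 fun x _ z _ h => h).map
  -- the residue of `y` is in the prime field
  have hfix : res a ^ q = res a := by
    have h0 : ((∏ r ∈ S, (X - C r) : (ZMod q)[X]).map κ).IsRoot (res a) := by
      rw [← hmap]
      exact (hev a hy).map
    rw [IsRoot.def, Polynomial.map_prod, eval_prod, Finset.prod_eq_zero_iff] at h0
    obtain ⟨r, -, hr⟩ := h0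
    simp only [Polynomial.map_sub, map_X, map_C, eval_sub, eval_X, eval_C, sub_eq_zero] at hr
    rw [hr, ← map_pow, ZMod.pow_card]
  have hres : res b = res a := by
    rw [← hfix, ← map_pow, ← sub_eq_zero, ← map_sub, IsLocalRing.residue_eq_zero_iff,
      ← A.coe_mem_nonunits_iff]
    exact FA.Density.sub_pow_mem_nonunits hφ (hint hy)
  by_contra hne
  have hab : b - a ≠ 0 := fun h => hne (congrArg Subtype.val (sub_eq_zero.1 h))
  obtain ⟨G, hG⟩ := dvd_iff_isRoot.2 (hev a hy)
  have hGb : G.eval b = 0 := by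
    have h := hev b hyφ
    rw [IsRoot.def, hG, eval_mul, eval_sub, eval_X, eval_C] at h
    exact (mul_eq_zero.1 h).resolve_left hab
  have hGa : (G.map res).IsRoot (res a) := by
    rw [← hres]
    exact (show G.IsRoot b from hGb).map
  obtain ⟨G', hG'⟩ := dvd_iff_isRoot.2 hGa
  have hsq : (X - C (res a)) * (X - C (res a)) ∣ (H.map (Int.castRingHom A)).map res := by
    rw [hG, Polynomial.map_mul, Polynomial.map_sub, map_X, map_C, hG', ← mul_assoc]
    exact dvd_mul_right _ _
  exact not_isUnit_X_sub_C _ (hsep.squarefree _ hsq)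

/-- **`√d` is not in `ℚ(j)`**, so `ℚ(√d, j)` has degree at least twice the degree of `j`. -/
theorem two_mul_le_finrank {H : ℤ[X]} (hmon : H.Monic)
    (hirr : Irreducible (H.map (Int.castRingHom ℚ)))
    (hreal : ∃ r : ℝ, aeval r H = 0) {y : Qb} (hy : aeval y H = 0) {d : ℤ} (hd0 : d < 0) {s : Qb}
    (hs : s ^ 2 = (d : Qb)) :
    2 * H.natDegree ≤ Module.finrank ℚ (IntermediateField.adjoin ℚ {y} ⊔
      IntermediateField.adjoin ℚ {s} : IntermediateField ℚ Qb) := by
  obtain ⟨r, hr⟩ := hreal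
  have hyint : IsIntegral ℚ y := Algebra.IsIntegral.isIntegral y
  have hmin : minpoly ℚ y = H.map (Int.castRingHom ℚ) := (minpoly.eq_of_irreducible_of_monic hirr
    (by rw [← algebraMap_int_eq, aeval_map_algebraMap]; exact hy) (hmon.map _)).symm
  have hdeg : Module.finrank ℚ (IntermediateField.adjoin ℚ {y}) = H.natDegree := by
    rw [IntermediateField.adjoin.finrank hyint, hmin, hmon.natDegree_map]
  have hsnot : s ∉ IntermediateField.adjoin ℚ {y} := fun hsy => by
    have hroot : r ∈ (minpoly ℚ y).aroots ℝ := by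
      rw [mem_aroots]
      refine ⟨minpoly.ne_zero hyint, ?_⟩
      rw [hmin, ← algebraMap_int_eq, aeval_map_algebraMap]
      exact hr
    let i : IntermediateField.adjoin ℚ {y} →ₐ[ℚ] ℝ :=
      (IntermediateField.algHomAdjoinIntegralEquiv ℚ hyint).symm ⟨r, hroot⟩
    have h : (i ⟨s, hsy⟩) ^ 2 = (d : ℝ) := by
      rw [← map_pow, show (⟨s, hsy⟩ : IntermediateField.adjoin ℚ {y}) ^ 2 =
        (d : IntermediateField.adjoin ℚ {y}) from Subtype.ext (by simpa using hs), map_intCast]
    have : (d : ℝ) < 0 := Int.cast_lt_zero.mpr hd0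
    nlinarith [sq_nonneg (i ⟨s, hsy⟩)]
  haveI : FiniteDimensional ℚ (IntermediateField.adjoin ℚ {y}) :=
    IntermediateField.adjoin.finiteDimensional hyint
  haveI : FiniteDimensional ℚ (IntermediateField.adjoin ℚ {s}) :=
    IntermediateField.adjoin.finiteDimensional (Algebra.IsIntegral.isIntegral s)
  set Y := IntermediateField.adjoin ℚ {y}
  set G := Y ⊔ IntermediateField.adjoin ℚ {s}
  haveI : FiniteDimensional ℚ G := IntermediateField.finiteDimensional_sup _ _
  have hle : Y ≤ G := le_sup_left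
  rw [← hdeg]
  by_contra hlt
  have hdvd : Module.finrank ℚ Y ∣ Module.finrank ℚ G :=
    IntermediateField.finrank_dvd_of_le_right hle
  obtain ⟨c, hc⟩ := hdvd
  have hc1 : c = 1 := by
    have hpos : 0 < Module.finrank ℚ G := Module.finrank_pos
    rcases c with _ | _ | c
    · omega
    · rfl
    · exfalso
      apply hlt
      rw [hc]
      calc 2 * Module.finrank ℚ Y = Module.finrank ℚ Y * 2 := mul_comm _ _
        _ ≤ _ := Nat.mul_le_mul_left _ (by omega)
  have heq : Y = G := IntermediateField.eq_of_le_of_finrank_eq hle (by rw [hc, hc1, mul_one])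
  exact hsnot (heq ▸ (le_sup_right : IntermediateField.adjoin ℚ {s} ≤ G)
    (IntermediateField.mem_adjoin_simple_self ℚ s))

end FA.CMClassFactor

end
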