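import Fermat.Agent.CMClassFactor.ClassPoly
import Fermat.Agent.CMTorsionAllOrders.Main

/-!
# The class number factor

An automorphism in the class of a rational integer fixes `j`: an agreeing Frobenius element has
`4 q = t² - k² D`, so the class polynomial splits at `q`. As `[K (j) : K]` is the class number `h`
of the order, the image of the automorphisms fixing `F` has index a multiple of `h` times its
index in those classes, and so `2 h` times the index of the scalars up to sign divides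
`[F K : ℚ]`.
-/

set_option autoImplicit false
set_option linter.style.haveILetI false
set_option linter.unusedSectionVars false

noncomputable section

open Polynomial WeierstrassCurve NumberField Module FA.CMFields FA.CMTorsionAllOrders
open FA.Hecke (RayClassGroup)
open scoped WeierstrassCurve.Affine Classical

local notation "Qb" => AlgebraicClosure ℚ
local notation "GQ" => AlgebraicClosure ℚ ≃ₐ[ℚ] AlgebraicClosure ℚ

namespace FA.CMClassFactor

variable {d : ℤ} {s : Qb}

set_option quotPrecheck false in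
local notation "𝕂" => IntermediateField.adjoin ℚ ({s} : Set (AlgebraicClosure ℚ))

/-- **An automorphism in the class of a rational integer fixes `j`.** -/
theorem fixes_root {D f : ℤ} (hd : Squarefree d) (hd0 : d < 0) (hDdf : D = d * f ^ 2)
    (hs : s ^ 2 = (d : Qb)) [NumberField 𝕂] [IsTotallyComplex 𝕂] {M N : ℕ} [NeZero N]
    (hN : N = 2 * M) (hDM : D ∣ (M : ℤ))
    {R : Type} [Field R] [NumberField R] [Algebra 𝕂 R] [IsGalois 𝕂 R]
    (ω : RayClassGroup (Ideal.span {(N : 𝓞 𝕂)}) →* (R ≃ₐ[𝕂] R)) (hinj : Function.Injective ω)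
    (hω : FA.RayFields.FrobeniusClasses R (modulus_ne_bot (K := 𝕂) (N := N)) ω)
    (ι : R →ₐ[𝕂] Qb) {H : ℤ[X]} (hmon : H.Monic) {y : Qb} (hy : aeval y H = 0)
    (hsplit : ∀ q : ℕ, q.Prime → 5 ≤ q → ¬ (q : ℤ) ∣ D →
      ∀ t k : ℤ, t ^ 2 - 4 * (q : ℤ) = k ^ 2 * D →
        ∃ S : Finset (ZMod q), H.map (Int.castRingHom (ZMod q)) = ∏ r ∈ S, (X - Polynomial.C r))
    {σ : GQ} (hσs : σ s = s) (u : (ZMod N)ˣ)
    (hσu : ∀ z : R, σ (ι z) = ι (ω (intClass u) z)) : σ y = y := by
  haveI : FiniteDimensional ℚ (IntermediateField.adjoin ℚ {y}) :=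
    IntermediateField.adjoin.finiteDimensional (Algebra.IsIntegral.isIntegral y)
  obtain ⟨q, hq, hqS, hqN, A, φ, hA, hφ, -, hagree, u₁, w₁, hrep⟩ :=
    exists_frobenius_representation hd hd0 hs hN ω hinj
      (fun v hv Q τ hQ hτ => (hω v hv Q hQ).2 τ hτ) ι hσs u hσu (IntermediateField.adjoin ℚ {y})
      {2, 3}
  simp only [Finset.mem_insert, Finset.mem_singleton, not_or] at hqS
  obtain ⟨hq2, hq3⟩ := hqS
  have h5 : 5 ≤ q := by
    have := hq.two_le
    rcases (show q = 2 ∨ q = 3 ∨ q = 4 ∨ 5 ≤ q by omega) with h | h | h | h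
    · exact absurd h hq2
    · exact absurd h hq3
    · exact absurd hq (h ▸ by norm_num)
    · exact h
  have hqD : ¬ (q : ℤ) ∣ D := fun h => hqN (hN ▸ dvd_mul_of_dvd_right
    (Int.natCast_dvd_natCast.1 (h.trans hDM)) 2)
  obtain ⟨g, hg⟩ := hDM
  obtain ⟨S, hS⟩ := hsplit q hq h5 hqD (2 * ((rep u : ℕ) : ℤ) + 2 * (M : ℤ) * u₁)
    (2 * d * f * g * w₁) (by
      rw [hrep, hg, hDdf]
      ring)
  have hyY : y ∈ IntermediateField.adjoin ℚ {y} := IntermediateField.mem_adjoin_simple_self ℚ y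
  rw [← hagree y hyY]
  exact frobenius_fixes hmon hy hq hS hA hφ

/-- **The class number divides the index.** -/
theorem classNumber_mul_relIndex_dvd (hd0 : d < 0) (hs : s ^ 2 = (d : Qb)) [NumberField 𝕂]
    {R : Type} [Field R] [NumberField R] [Algebra 𝕂 R] [IsGalois 𝕂 R] (ι : R →ₐ[𝕂] Qb)
    (hab : ∀ g h : R ≃ₐ[𝕂] R, g * h = h * g)
    (C : Subgroup (R ≃ₐ[𝕂] R)) (G : IntermediateField ℚ Qb) {H : ℤ[X]} (hmon : H.Monic)
    (hirr : Irreducible (H.map (Int.castRingHom ℚ))) (hreal : ∃ r : ℝ, aeval r H = 0) {y : Qb}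
    (hy : aeval y H = 0) (hyG : y ∈ G)
    (hfix : ∀ σ : GQ, σ s = s → ∀ τ ∈ C, (∀ z : R, σ (ι z) = ι (τ z)) → σ y = y) :
    H.natDegree * (imageGroup ι G).relIndex C ∣ (imageGroup ι G).index := by
  haveI : IsGalois ℚ Qb := FA.EC.isGalois_algebraicClosure
  haveI : Algebra.IsAlgebraic 𝕂 Qb := Algebra.IsAlgebraic.tower_top (K := ℚ) 𝕂
  haveI : IsGalois 𝕂 Qb := IsGalois.tower_top_of_isGalois ℚ 𝕂 Qb
  haveI : FiniteDimensional 𝕂 R := Module.Finite.of_restrictScalars_finite ℚ 𝕂 R
  letI : Algebra R Qb := ι.toRingHom.toAlgebra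
  haveI : IsScalarTower 𝕂 R Qb := IsScalarTower.of_algebraMap_eq fun k => (ι.commutes k).symm
  -- `y` lies in the image of `R`
  obtain ⟨z₀, hz₀⟩ : y ∈ ι.fieldRange := by
    rw [← InfiniteGalois.fixedField_fixingSubgroup ι.fieldRange,
      IntermediateField.mem_fixedField_iff]
    intro g hg
    exact hfix (g.restrictScalars ℚ)
      (g.commutes ⟨s, IntermediateField.mem_adjoin_simple_self ℚ s⟩) 1 (one_mem _)
      fun z => hg ⟨ι z, z, rfl⟩
  set Y : IntermediateField ℚ Qb := IntermediateField.adjoin ℚ {y}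
  set P := imageGroup ι Y with hP
  have hHP : imageGroup ι G ≤ P :=
    imageGroup_antitone ι (IntermediateField.adjoin_simple_le_iff.mpr hyG)
  have hCP : C ≤ P := by
    intro τ hτ
    obtain ⟨g, hg⟩ := AlgEquiv.restrictNormalHom_surjective (F := 𝕂) (K₁ := R) Qb τ
    have hgs : g s = s := g.commutes ⟨s, IntermediateField.mem_adjoin_simple_self ℚ s⟩
    have hgz : ∀ z : R, g (ι z) = ι (τ z) := fun z => by
      rw [← hg]
      exact (AlgEquiv.restrictNormal_commutes g R z).symm
    have hgy : g y = y := hfix (g.restrictScalars ℚ) hgs τ hτ hgz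
    refine ⟨g.restrictScalars ℚ, hgs, fun w hw => ?_, hgz⟩
    show g w = w
    induction hw using IntermediateField.adjoin_induction with
    | mem a ha => rw [Set.mem_singleton_iff.mp ha]; exact hgy
    | algebraMap a => exact (g.restrictScalars ℚ).commutes a
    | add a b _ _ ha hb => rw [map_add, ha, hb]
    | inv a _ ha => rw [map_inv₀, ha]
    | mul a b _ _ ha hb => rw [map_mul, ha, hb]
  -- the index of `P`
  have hPy : z₀ ∈ IntermediateField.fixedField P := by
    rw [IntermediateField.mem_fixedField_iff]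
    rintro τ ⟨σ, -, hσY, hσ⟩
    refine ι.toRingHom.injective ?_
    show ι (τ z₀) = ι z₀
    rw [← hσ z₀, show ι z₀ = y from hz₀]
    exact hσY y (IntermediateField.mem_adjoin_simple_self ℚ y)
  have hindex : H.natDegree ∣ P.index := by
    have h1 := Module.finrank_mul_finrank 𝕂 (IntermediateField.fixedField P) R
    rw [IntermediateField.finrank_fixedField_eq_card, mul_comm,
      show finrank 𝕂 R = Nat.card (R ≃ₐ[𝕂] R) from (IsGalois.card_aut_eq_finrank 𝕂 R).symm,
      ← Subgroup.card_mul_index P] at h1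
    rw [← Nat.eq_of_mul_eq_mul_left Nat.card_pos h1,
      (IntermediateField.equivMap (IntermediateField.fixedField P) ι).toLinearEquiv.finrank_eq]
    haveI : FiniteDimensional 𝕂 ((IntermediateField.fixedField P).map ι) :=
      Module.Finite.equiv
        (IntermediateField.equivMap (IntermediateField.fixedField P) ι).toLinearEquiv
    have hle : IntermediateField.adjoin 𝕂 {y} ≤ (IntermediateField.fixedField P).map ι :=
      IntermediateField.adjoin_simple_le_iff.mpr ⟨z₀, hPy, hz₀⟩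
    refine dvd_trans (dvd_of_eq ?_) (IntermediateField.finrank_dvd_of_le_right hle)
    have htop : finrank ℚ 𝕂 * finrank 𝕂 (IntermediateField.adjoin 𝕂 {y}) =
        finrank ℚ (Y ⊔ 𝕂 : IntermediateField ℚ Qb) := by
      rw [finrank_mul_finrank]
      show finrank ℚ ((IntermediateField.adjoin 𝕂 {y}).restrictScalars ℚ) = _
      refine congrArg (fun T : IntermediateField ℚ Qb => finrank ℚ T) (le_antisymm ?_ ?_)
      · intro w hw
        induction (show w ∈ IntermediateField.adjoin 𝕂 {y} from hw)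
          using IntermediateField.adjoin_induction with
        | mem a ha =>
          rw [Set.mem_singleton_iff.mp ha]
          exact (le_sup_left : Y ≤ Y ⊔ 𝕂) (IntermediateField.mem_adjoin_simple_self ℚ y)
        | algebraMap a => exact (le_sup_right : 𝕂 ≤ Y ⊔ 𝕂) a.2
        | add a b _ _ ha hb => exact add_mem (ha (by assumption)) (hb (by assumption))
        | inv a _ ha => exact inv_mem (ha (by assumption))
        | mul a b _ _ ha hb => exact mul_mem (ha (by assumption)) (hb (by assumption))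
      · refine sup_le (IntermediateField.adjoin_simple_le_iff.mpr
          (IntermediateField.mem_adjoin_simple_self 𝕂 y)) fun w hw => ?_
        exact (IntermediateField.adjoin 𝕂 {y}).algebraMap_mem ⟨w, hw⟩
    have h2 := two_mul_le_finrank hmon hirr hreal hy hd0 hs
    rw [← htop, FA.Jugendtraum.finrank_adjoin_sqrt hd0 hs] at h2
    have hdeg : finrank ℚ Y = H.natDegree := by
      rw [IntermediateField.adjoin.finrank (Algebra.IsIntegral.isIntegral y),
        (minpoly.eq_of_irreducible_of_monic hirr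
          (by rw [← algebraMap_int_eq, aeval_map_algebraMap]; exact hy) (hmon.map _)).symm,
        hmon.natDegree_map]
    have h3 := IntermediateField.finrank_sup_le Y 𝕂
    rw [← htop, FA.Jugendtraum.finrank_adjoin_sqrt hd0 hs, hdeg] at h3
    omega
  haveI : (imageGroup ι G).Normal := ⟨fun x hx g => by rwa [hab g x, mul_inv_cancel_right]⟩
  rw [← Subgroup.relIndex_mul_index hHP, mul_comm H.natDegree]
  refine mul_dvd_mul ?_ hindex
  rw [← Subgroup.relIndex_sup_right,
    ← Subgroup.relIndex_mul_relIndex (imageGroup ι G) (C ⊔ imageGroup ι G) P le_sup_right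
      (sup_le hCP hHP)]
  exact dvd_mul_right _ _

/-- **`2 h` times the index of the scalars up to sign divides `[F K : ℚ]`.** -/
theorem classNumber_mul_sup_index_dvd (F : IntermediateField ℚ Qb) [FiniteDimensional ℚ F]
    (E : WeierstrassCurve F) [E.IsElliptic] (ψ : F →+* ℂ) {D f : ℤ} (hd : Squarefree d)
    (hd0 : d < 0) (hDdf : D = d * f ^ 2) (hD : D < -4) {Λ : PeriodPair}
    (h2 : Λ.g₂ = ψ E.c₄ / 12) (h3 : Λ.g₃ = ψ E.c₆ / 216) (hring : IsMultiplierRing Λ D)
    (hs : s ^ 2 = (d : Qb)) [NumberField 𝕂] {n : ℕ} (hn : n ≠ 0) :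
    2 * ((FA.Singular.Red D).ncard * (scalarGroup E s n ⊔ FA.CMRayClass.pmOne (ZMod n)).index) ∣
      finrank ℚ (F ⊔ 𝕂 : IntermediateField ℚ Qb) := by
  haveI := isTotallyComplex_adjoin hd0 hs
  set M : ℕ := 8 * D.natAbs ^ 2 * n ^ 2 with hM
  set N : ℕ := 2 * M with hN
  haveI : NeZero N := ⟨by
    rw [hN, hM]
    exact mul_ne_zero two_ne_zero (mul_ne_zero (mul_ne_zero (by norm_num)
      (pow_ne_zero _ (Int.natAbs_ne_zero.2 (by omega)))) (pow_ne_zero _ hn))⟩
  have hDM : D ∣ (M : ℤ) := ⟨8 * D * (n : ℤ) ^ 2, by rw [hM]; push_cast; rw [sq_abs]; ring⟩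
  obtain ⟨R, _, _, _, _, hab, ω, hωb, hω, -, -⟩ :=
    FA.Summary.ray_class_field 𝕂 (modulus_ne_bot (K := 𝕂) (N := N))
  haveI : FiniteDimensional 𝕂 R := Module.Finite.of_restrictScalars_finite ℚ 𝕂 R
  haveI : Algebra.IsAlgebraic 𝕂 R := Algebra.IsAlgebraic.of_finite _ _
  let ι : R →ₐ[𝕂] Qb := IsAlgClosed.lift
  obtain ⟨H, hmon, hirr, hdeg, hy, hreal, hsplit⟩ := exists_classPoly E ψ hD h2 h3 hring
  have hfix : ∀ σ : GQ, σ s = s → ∀ τ ∈ (ω.comp (intClass (K := 𝕂) (N := N))).range,
      (∀ z : R, σ (ι z) = ι (τ z)) → σ (E.j : Qb) = (E.j : Qb) := by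
    rintro σ hσs _ ⟨u, rfl⟩ hσu
    exact fixes_root hd hd0 hDdf hs rfl hDM ω hωb.1 hω ι hmon hy hsplit hσs u hσu
  rw [← hdeg]
  refine dvd_trans (mul_dvd_mul_left 2 (mul_dvd_mul_left _ (scalarGroup_sup_index_dvd F E ψ hd
    hd0 hDdf hD h2 h3 hring hs hn rfl hM ω hωb.1 hω ι))) ?_
  exact dvd_trans (mul_dvd_mul_left 2
    (classNumber_mul_relIndex_dvd hd0 hs ι hab _ F hmon hirr hreal hy E.j.2 hfix))
    (index_imageGroup_dvd hd0 hs ι F)

/-- **The scalars have index at most `[F K : ℚ] / h`.** -/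
theorem classNumber_mul_scalar_index_le (F : IntermediateField ℚ Qb) [FiniteDimensional ℚ F]
    (E : WeierstrassCurve F) [E.IsElliptic] (ψ : F →+* ℂ) {D f : ℤ} (hd : Squarefree d)
    (hd0 : d < 0) (hDdf : D = d * f ^ 2) (hD : D < -4) {Λ : PeriodPair}
    (h2 : Λ.g₂ = ψ E.c₄ / 12) (h3 : Λ.g₃ = ψ E.c₆ / 216) (hring : IsMultiplierRing Λ D)
    (hs : s ^ 2 = (d : Qb)) [NumberField 𝕂] {n : ℕ} (hn : n ≠ 0) :
    (FA.Singular.Red D).ncard * (scalarGroup E s n).index ≤
      finrank ℚ (F ⊔ 𝕂 : IntermediateField ℚ Qb) := by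
  haveI : NeZero n := ⟨hn⟩
  haveI : FiniteDimensional ℚ (F ⊔ 𝕂 : IntermediateField ℚ Qb) :=
    IntermediateField.finiteDimensional_sup _ _
  refine le_trans (Nat.mul_le_mul_left _ (index_le_two_mul_sup n _)) ?_
  rw [mul_left_comm]
  exact Nat.le_of_dvd Module.finrank_pos
    (classNumber_mul_sup_index_dvd F E ψ hd hd0 hDdf hD h2 h3 hring hs hn)

end FA.CMClassFactor

end
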